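import Mathlib

/-!
# Descent on `Y² = X (X - 1) (X - 81)` : basic number-theoretic lemmas
-/

namespace Fermat.Agent.S51.H951

/-- Auxiliary form of `sq_factor` with the gcd abstracted. -/
lemma sq_factor_aux (u v n g U V : ℤ) (h : u * v = n ^ 2) (hn : n ≠ 0) (hg0 : g ≠ 0)
    (hUV : Int.gcd U V = 1) (hu : u = U * g) (hv : v = V * g) :
    ∃ (s u₁ v₁ : ℤ), (s = 1 ∨ s = -1) ∧ u = s * g * u₁ ^ 2 ∧
      v = s * g * v₁ ^ 2 ∧ u₁ ≠ 0 ∧ v₁ ≠ 0 ∧ IsCoprime u₁ v₁ := by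
  have h1 : g ^ 2 * (U * V) = n ^ 2 := by
    rw [← h, hu, hv]; ring
  have hdvd : g ∣ n := by
    have : g ^ 2 ∣ n ^ 2 := ⟨U * V, h1.symm⟩
    exact (Int.pow_dvd_pow_iff two_ne_zero).mp this
  obtain ⟨n₁, hn₁⟩ := hdvd
  have hn₁0 : n₁ ≠ 0 := by
    rintro rfl
    apply hn; rw [hn₁]; ring
  have h2 : U * V = n₁ ^ 2 := by
    have : g ^ 2 * (U * V) = g ^ 2 * n₁ ^ 2 := by rw [h1, hn₁]; ring
    exact mul_left_cancel₀ (pow_ne_zero 2 hg0) this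
  have h3 : V * U = n₁ ^ 2 := by rw [mul_comm]; exact h2
  have hVU : Int.gcd V U = 1 := by rw [Int.gcd_comm]; exact hUV
  obtain ⟨u₁, hu₁⟩ := Int.sq_of_gcd_eq_one hUV h2
  obtain ⟨v₁, hv₁⟩ := Int.sq_of_gcd_eq_one hVU h3
  have hpos : 0 < U * V := by
    rw [h2]; positivity
  have hU0 : U ≠ 0 := by
    rintro rfl; simp at hpos
  have hV0 : V ≠ 0 := by
    rintro rfl; simp at hpos
  have hu₁0 : u₁ ≠ 0 := by
    rintro rfl
    rcases hu₁ with h | h <;> simp at h <;> exact hU0 h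
  have hv₁0 : v₁ ≠ 0 := by
    rintro rfl
    rcases hv₁ with h | h <;> simp at h <;> exact hV0 h
  have hcop : IsCoprime u₁ v₁ := by
    have hc : IsCoprime U V := Int.isCoprime_iff_gcd_eq_one.mpr hUV
    have hc2 : IsCoprime (u₁ ^ 2) (v₁ ^ 2) := by
      rcases hu₁ with h | h <;> rcases hv₁ with h' | h' <;> rw [h, h'] at hc
      · exact hc
      · exact (IsCoprime.neg_right_iff _ _).mp hc
      · exact (IsCoprime.neg_left_iff _ _).mp hc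
      · exact (IsCoprime.neg_neg_iff _ _).mp hc
    exact (IsCoprime.pow_iff (by norm_num) (by norm_num)).mp hc2
  have hu1p : 0 < u₁ ^ 2 := by positivity
  have hv1p : 0 < v₁ ^ 2 := by positivity
  rcases hu₁ with hU | hU <;> rcases hv₁ with hV | hV
  · refine ⟨1, u₁, v₁, Or.inl rfl, ?_, ?_, hu₁0, hv₁0, hcop⟩
    · rw [hu]; rw [hU]; ring
    · rw [hv]; rw [hV]; ring
  · exfalso
    rw [hU, hV] at hpos
    nlinarith
  · exfalso
    rw [hU, hV] at hpos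
    nlinarith
  · refine ⟨-1, u₁, v₁, Or.inr rfl, ?_, ?_, hu₁0, hv₁0, hcop⟩
    · rw [hu]; rw [hU]; ring
    · rw [hv]; rw [hV]; ring

/-- If `u * v` is a nonzero square, then `u = s g u₁²`, `v = s g v₁²` with `g = gcd u v`,
`s = ±1` and `gcd u₁ v₁ = 1`. -/
lemma sq_factor (u v n : ℤ) (h : u * v = n ^ 2) (hn : n ≠ 0) :
    ∃ (s u₁ v₁ : ℤ), (s = 1 ∨ s = -1) ∧ u = s * (Int.gcd u v) * u₁ ^ 2 ∧
      v = s * (Int.gcd u v) * v₁ ^ 2 ∧ u₁ ≠ 0 ∧ v₁ ≠ 0 ∧ IsCoprime u₁ v₁ := by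
  have hu0 : u ≠ 0 := by
    rintro rfl
    apply hn
    have : n ^ 2 = 0 := by rw [← h]; ring
    exact pow_eq_zero_iff (two_ne_zero) |>.mp this
  have hgpos : 0 < Int.gcd u v := Int.gcd_pos_of_ne_zero_left _ hu0
  obtain ⟨U, V, hUV, hu, hv⟩ := Int.exists_gcd_one hgpos
  have hg0 : ((Int.gcd u v : ℕ) : ℤ) ≠ 0 := by
    have : (0:ℤ) < ((Int.gcd u v : ℕ) : ℤ) := by exact_mod_cast hgpos
    exact this.ne'
  exact sq_factor_aux u v n _ U V h hn hg0 hUV hu hv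

end Fermat.Agent.S51.H951
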