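import Fermat.Agent.S51.H951.Basic

/-!
# Descent on `Y² = X (X - 1) (X - 81)` : the 2-descent classification
-/

namespace Fermat.Agent.S51.H951

lemma zmod3_aux : ∀ u e v : ZMod 3, (3 * u ^ 2 - e ^ 2) * (u ^ 2 - 27 * e ^ 2) = v ^ 2 →
    e = 0 ∨ (u = 0 ∧ v = 0) := by decide

lemma zmod3_aux' : ∀ u e v : ZMod 3, (27 * u ^ 2 - e ^ 2) * (u ^ 2 - 3 * e ^ 2) = v ^ 2 →
    e = 0 ∨ (u = 0 ∧ v = 0) := by decide

lemma not_three_dvd_both {u v : ℤ} (h : IsCoprime u v) (hu : (3:ℤ) ∣ u) (hv : (3:ℤ) ∣ v) : False := by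
  have := h.isUnit_of_dvd' hu hv
  rw [Int.isUnit_iff] at this
  omega

lemma p_pos (p e n : ℤ) (he : 0 < e) (hn : n ≠ 0)
    (h : n ^ 2 = p * (p - e ^ 2) * (p - 81 * e ^ 2)) : 0 < p := by
  by_contra hp
  rw [not_lt] at hp
  have he2 : 0 < e ^ 2 := by positivity
  have h1 : p - e ^ 2 < 0 := by linarith
  have h2 : p - 81 * e ^ 2 < 0 := by linarith
  have h3 : 0 < (p - e ^ 2) * (p - 81 * e ^ 2) := mul_pos_of_neg_of_neg h1 h2
  have h4 : p * ((p - e ^ 2) * (p - 81 * e ^ 2)) ≤ 0 :=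
    mul_nonpos_of_nonpos_of_nonneg hp h3.le
  have h5 : 0 < n ^ 2 := by positivity
  nlinarith

lemma p_square (p e n : ℤ) (he : 0 < e) (hcop : IsCoprime p e) (hn : n ≠ 0)
    (h : n ^ 2 = p * (p - e ^ 2) * (p - 81 * e ^ 2)) : ∃ a : ℤ, 0 < a ∧ p = a ^ 2 := by
  have hp : 0 < p := p_pos p e n he hn h
  have hM : p * ((p - e ^ 2) * (p - 81 * e ^ 2)) = n ^ 2 := by rw [h]; ring
  obtain ⟨s, u₁, v₁, hs, hu, hv, hu0, hv0, hc⟩ := sq_factor _ _ _ hM hn
  -- abstract the gcd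
  obtain ⟨g, hg⟩ : ∃ g : ℕ, g = Int.gcd p ((p - e ^ 2) * (p - 81 * e ^ 2)) := ⟨_, rfl⟩
  rw [← hg] at hu hv
  have hgp : (g : ℤ) ∣ p := by rw [hg]; exact Int.gcd_dvd_left _ _
  have hgM : (g : ℤ) ∣ (p - e ^ 2) * (p - 81 * e ^ 2) := by rw [hg]; exact Int.gcd_dvd_right _ _
  have hg81 : (g : ℤ) ∣ 81 := by
    have h1 : (g : ℤ) ∣ 81 * e ^ 4 := by
      have : 81 * e ^ 4 = (p - e ^ 2) * (p - 81 * e ^ 2) - p * (p - 82 * e ^ 2) := by ring
      rw [this]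
      exact dvd_sub hgM (Dvd.dvd.mul_right hgp _)
    have h2 : IsCoprime (g : ℤ) (e ^ 4) := by
      apply IsCoprime.pow_right
      exact IsCoprime.of_isCoprime_of_dvd_left hcop hgp
    exact h2.dvd_of_dvd_mul_right h1
  have hg81' : g ∣ 81 := by exact_mod_cast hg81
  have hgmem : g ∈ Nat.divisors 81 := Nat.mem_divisors.mpr ⟨hg81', by norm_num⟩
  have hdiv : Nat.divisors 81 = {1, 3, 9, 27, 81} := by decide
  rw [hdiv] at hgmem
  simp only [Finset.mem_insert, Finset.mem_singleton] at hgmem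
  have hs1 : s = 1 := by
    rcases hs with h | h
    · exact h
    · exfalso
      rw [h] at hu
      have : 0 < (g:ℤ) * u₁ ^ 2 := by
        have h1 : 0 < u₁ ^ 2 := by positivity
        have h2 : 0 ≤ (g : ℤ) := by positivity
        nlinarith
      nlinarith
  subst hs1
  have h3e : ¬ (3 : ℤ) ∣ e ∨ ¬ (3:ℤ) ∣ p := by
    by_contra hcon
    rw [not_or, not_not, not_not] at hcon
    exact not_three_dvd_both hcop hcon.2 hcon.1
  rcases hgmem with rfl | rfl | rfl | rfl | rfl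
  · refine ⟨|u₁|, abs_pos.mpr hu0, ?_⟩
    rw [sq_abs, hu]; push_cast; ring
  · exfalso
    -- p = 3 u₁², M = 3 v₁²
    push_cast at hu hv
    have h3p : (3:ℤ) ∣ p := ⟨u₁ ^ 2, by linear_combination hu⟩
    have heq : (3 * u₁ ^ 2 - e ^ 2) * (u₁ ^ 2 - 27 * e ^ 2) = v₁ ^ 2 := by
      have : 3 * ((3 * u₁ ^ 2 - e ^ 2) * (u₁ ^ 2 - 27 * e ^ 2)) = 3 * v₁ ^ 2 := by
        rw [hu] at hv; linear_combination hv
      linarith
    have hz := congrArg (Int.cast : ℤ → ZMod 3) heq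
    push_cast at hz
    rcases zmod3_aux _ _ _ hz with h0 | ⟨h1, h2⟩
    · have : (3:ℤ) ∣ e := (ZMod.intCast_zmod_eq_zero_iff_dvd e 3).mp h0
      rcases h3e with h | h
      · exact h this
      · exact h h3p
    · have hu3 : (3:ℤ) ∣ u₁ := (ZMod.intCast_zmod_eq_zero_iff_dvd u₁ 3).mp h1
      have hv3 : (3:ℤ) ∣ v₁ := (ZMod.intCast_zmod_eq_zero_iff_dvd v₁ 3).mp h2
      exact not_three_dvd_both hc hu3 hv3
  · refine ⟨|3 * u₁|, abs_pos.mpr (by simpa using hu0), ?_⟩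
    rw [sq_abs, hu]; push_cast; ring
  · exfalso
    push_cast at hu hv
    have h3p : (3:ℤ) ∣ p := ⟨9 * u₁ ^ 2, by linear_combination hu⟩
    have heq : (27 * u₁ ^ 2 - e ^ 2) * (u₁ ^ 2 - 3 * e ^ 2) = v₁ ^ 2 := by
      have : 27 * ((27 * u₁ ^ 2 - e ^ 2) * (u₁ ^ 2 - 3 * e ^ 2)) = 27 * v₁ ^ 2 := by
        rw [hu] at hv; linear_combination hv
      linarith
    have hz := congrArg (Int.cast : ℤ → ZMod 3) heq
    push_cast at hz
    rcases zmod3_aux' _ _ _ hz with h0 | ⟨h1, h2⟩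
    · have : (3:ℤ) ∣ e := (ZMod.intCast_zmod_eq_zero_iff_dvd e 3).mp h0
      rcases h3e with h | h
      · exact h this
      · exact h h3p
    · have hu3 : (3:ℤ) ∣ u₁ := (ZMod.intCast_zmod_eq_zero_iff_dvd u₁ 3).mp h1
      have hv3 : (3:ℤ) ∣ v₁ := (ZMod.intCast_zmod_eq_zero_iff_dvd v₁ 3).mp h2
      exact not_three_dvd_both hc hu3 hv3
  · refine ⟨|9 * u₁|, abs_pos.mpr (by simpa using hu0), ?_⟩
    rw [sq_abs, hu]; push_cast; ring

set_option maxRecDepth 100000 in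
lemma zmod8_two_pos : ∀ a e u v : ZMod 8, a ^ 2 - e ^ 2 = 2 * u ^ 2 → a ^ 2 - 81 * e ^ 2 = 2 * v ^ 2 →
    (4 * a = 0 ∧ 4 * e = 0) ∨ (4 * u = 0 ∧ 4 * v = 0) := by decide

set_option maxRecDepth 100000 in
lemma zmod8_two_neg : ∀ a e u v : ZMod 8, a ^ 2 - e ^ 2 = -(2 * u ^ 2) → a ^ 2 - 81 * e ^ 2 = -(2 * v ^ 2) →
    (4 * a = 0 ∧ 4 * e = 0) ∨ (4 * u = 0 ∧ 4 * v = 0) := by decide

set_option maxRecDepth 100000 in
lemma zmod8_eight : ∀ e u v : ZMod 8, (2 * e ^ 2 = u ^ 2 - v ^ 2 ∨ 2 * e ^ 2 = -(u ^ 2 - v ^ 2)) →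
    4 * e = 0 := by decide

lemma even_of_zmod8 {x : ℤ} (h : 4 * (x : ZMod 8) = 0) : (2:ℤ) ∣ x := by
  have h' : ((4 * x : ℤ) : ZMod 8) = 0 := by push_cast; exact h
  have := (ZMod.intCast_zmod_eq_zero_iff_dvd (4 * x) 8).mp h'
  omega

lemma not_two_dvd_both {u v : ℤ} (h : IsCoprime u v) (hu : (2:ℤ) ∣ u) (hv : (2:ℤ) ∣ v) : False := by
  have := h.isUnit_of_dvd' hu hv
  rw [Int.isUnit_iff] at this
  omega

/-- contradiction for gcd ≡ 2 mod 8 -/
lemma BC_two (a e s k u₁ v₁ : ℤ) (hcop : IsCoprime a e) (hc : IsCoprime u₁ v₁)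
    (hs : s = 1 ∨ s = -1) (hk : k = 2 ∨ k = 10)
    (hu : a ^ 2 - e ^ 2 = s * k * u₁ ^ 2) (hv : a ^ 2 - 81 * e ^ 2 = s * k * v₁ ^ 2) : False := by
  have h10 : (10 : ZMod 8) = 2 := by decide
  have hzu := congrArg (Int.cast : ℤ → ZMod 8) hu
  have hzv := congrArg (Int.cast : ℤ → ZMod 8) hv
  have key : (4 * (a : ZMod 8) = 0 ∧ 4 * (e : ZMod 8) = 0) ∨
      (4 * (u₁ : ZMod 8) = 0 ∧ 4 * (v₁ : ZMod 8) = 0) := by
    rcases hs with rfl | rfl <;> rcases hk with rfl | rfl <;> push_cast at hzu hzv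
    · apply zmod8_two_pos _ _ _ _ (by linear_combination hzu) (by linear_combination hzv)
    · rw [h10] at hzu hzv
      apply zmod8_two_pos _ _ _ _ (by linear_combination hzu) (by linear_combination hzv)
    · apply zmod8_two_neg _ _ _ _ (by linear_combination hzu) (by linear_combination hzv)
    · rw [h10] at hzu hzv
      apply zmod8_two_neg _ _ _ _ (by linear_combination hzu) (by linear_combination hzv)
  rcases key with ⟨h1, h2⟩ | ⟨h1, h2⟩
  · exact not_two_dvd_both hcop (even_of_zmod8 h1) (even_of_zmod8 h2)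
  · exact not_two_dvd_both hc (even_of_zmod8 h1) (even_of_zmod8 h2)

/-- contradiction for gcd = 8 or 40 -/
lemma BC_eight (a e s k u₁ v₁ : ℤ) (hcop : IsCoprime a e)
    (hs : s = 1 ∨ s = -1) (hk : k = 1 ∨ k = 5)
    (hu : a ^ 2 - e ^ 2 = s * (8 * k) * u₁ ^ 2) (hv : a ^ 2 - 81 * e ^ 2 = s * (8 * k) * v₁ ^ 2) :
    False := by
  have h10 : (10 : ZMod 8) = 2 := by decide
  have he : (2:ℤ) ∣ e := by
    apply even_of_zmod8
    apply zmod8_eight (e : ZMod 8) (u₁ : ZMod 8) (v₁ : ZMod 8)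
    rcases hs with rfl | rfl <;> rcases hk with rfl | rfl
    · left
      have h1 : 10 * e ^ 2 = u₁ ^ 2 - v₁ ^ 2 := by linarith
      have hz := congrArg (Int.cast : ℤ → ZMod 8) h1
      push_cast at hz
      rw [h10] at hz
      exact hz
    · left
      have h1 : 2 * e ^ 2 = u₁ ^ 2 - v₁ ^ 2 := by linarith
      have hz := congrArg (Int.cast : ℤ → ZMod 8) h1
      push_cast at hz
      exact hz
    · right
      have h1 : 10 * e ^ 2 = -(u₁ ^ 2 - v₁ ^ 2) := by linarith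
      have hz := congrArg (Int.cast : ℤ → ZMod 8) h1
      push_cast at hz
      rw [h10] at hz
      exact hz
    · right
      have h1 : 2 * e ^ 2 = -(u₁ ^ 2 - v₁ ^ 2) := by linarith
      have hz := congrArg (Int.cast : ℤ → ZMod 8) h1
      push_cast at hz
      exact hz
  have ha : (2:ℤ) ∣ a := by
    have h2 : (2:ℤ) ∣ a ^ 2 := by
      have : a ^ 2 = e ^ 2 + s * (8 * k) * u₁ ^ 2 := by linear_combination hu
      rw [this]
      apply dvd_add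
      · exact Dvd.dvd.pow he two_ne_zero
      · exact ⟨s * (4 * k) * u₁ ^ 2, by ring⟩
    exact Int.Prime.dvd_pow' Nat.prime_two h2
  exact not_two_dvd_both hcop ha he

lemma BC_class (a e m : ℤ) (hcop : IsCoprime a e) (hm : m ≠ 0)
    (h : m ^ 2 = (a ^ 2 - e ^ 2) * (a ^ 2 - 81 * e ^ 2)) :
    ∃ (s ε b c : ℤ), (s = 1 ∨ s = -1) ∧ (ε = 1 ∨ ε = 5) ∧ 0 < b ∧ 0 < c ∧
      a ^ 2 - e ^ 2 = s * ε * b ^ 2 ∧ a ^ 2 - 81 * e ^ 2 = s * ε * c ^ 2 := by
  obtain ⟨s, u₁, v₁, hs, hu, hv, hu0, hv0, hc⟩ := sq_factor _ _ _ h.symm hm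
  obtain ⟨g, hg⟩ : ∃ g : ℕ, g = Int.gcd (a ^ 2 - e ^ 2) (a ^ 2 - 81 * e ^ 2) := ⟨_, rfl⟩
  rw [← hg] at hu hv
  have hgB : (g : ℤ) ∣ a ^ 2 - e ^ 2 := by rw [hg]; exact Int.gcd_dvd_left _ _
  have hgC : (g : ℤ) ∣ a ^ 2 - 81 * e ^ 2 := by rw [hg]; exact Int.gcd_dvd_right _ _
  have hg80 : (g : ℤ) ∣ 80 := by
    have h1 : (g : ℤ) ∣ 80 * e ^ 2 := by
      have : 80 * e ^ 2 = (a ^ 2 - e ^ 2) - (a ^ 2 - 81 * e ^ 2) := by ring
      rw [this]
      exact dvd_sub hgB hgC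
    have hBe : IsCoprime (a ^ 2 - e ^ 2) e := by
      have : a ^ 2 - e ^ 2 = a ^ 2 + (-e) * e := by ring
      rw [this]
      exact IsCoprime.add_mul_right_left (IsCoprime.pow_left hcop) _
    have h2 : IsCoprime (g : ℤ) (e ^ 2) := by
      apply IsCoprime.pow_right
      exact IsCoprime.of_isCoprime_of_dvd_left hBe hgB
    exact h2.dvd_of_dvd_mul_right h1
  have hg80' : g ∣ 80 := by exact_mod_cast hg80
  have hgmem : g ∈ Nat.divisors 80 := Nat.mem_divisors.mpr ⟨hg80', by norm_num⟩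
  have hdiv : Nat.divisors 80 = {1, 2, 4, 5, 8, 10, 16, 20, 40, 80} := by decide
  rw [hdiv] at hgmem
  simp only [Finset.mem_insert, Finset.mem_singleton] at hgmem
  rcases hgmem with rfl | rfl | rfl | rfl | rfl | rfl | rfl | rfl | rfl | rfl <;>
    push_cast at hu hv
  · exact ⟨s, 1, |u₁|, |v₁|, hs, Or.inl rfl, abs_pos.mpr hu0, abs_pos.mpr hv0,
      by rw [sq_abs]; linear_combination hu, by rw [sq_abs]; linear_combination hv⟩
  · exact (BC_two a e s 2 u₁ v₁ hcop hc hs (Or.inl rfl) hu hv).elim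
  · exact ⟨s, 1, |2 * u₁|, |2 * v₁|, hs, Or.inl rfl, abs_pos.mpr (by simpa using hu0),
      abs_pos.mpr (by simpa using hv0),
      by rw [sq_abs]; linear_combination hu, by rw [sq_abs]; linear_combination hv⟩
  · exact ⟨s, 5, |u₁|, |v₁|, hs, Or.inr rfl, abs_pos.mpr hu0, abs_pos.mpr hv0,
      by rw [sq_abs]; linear_combination hu, by rw [sq_abs]; linear_combination hv⟩
  · exact (BC_eight a e s 1 u₁ v₁ hcop hs (Or.inl rfl) (by linear_combination hu)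
      (by linear_combination hv)).elim
  · exact (BC_two a e s 10 u₁ v₁ hcop hc hs (Or.inr rfl) hu hv).elim
  · exact ⟨s, 1, |4 * u₁|, |4 * v₁|, hs, Or.inl rfl, abs_pos.mpr (by simpa using hu0),
      abs_pos.mpr (by simpa using hv0),
      by rw [sq_abs]; linear_combination hu, by rw [sq_abs]; linear_combination hv⟩
  · exact ⟨s, 5, |2 * u₁|, |2 * v₁|, hs, Or.inr rfl, abs_pos.mpr (by simpa using hu0),
      abs_pos.mpr (by simpa using hv0),
      by rw [sq_abs]; linear_combination hu, by rw [sq_abs]; linear_combination hv⟩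
  · exact (BC_eight a e s 5 u₁ v₁ hcop hs (Or.inr rfl) (by linear_combination hu)
      (by linear_combination hv)).elim
  · exact ⟨s, 5, |4 * u₁|, |4 * v₁|, hs, Or.inr rfl, abs_pos.mpr (by simpa using hu0),
      abs_pos.mpr (by simpa using hv0),
      by rw [sq_abs]; linear_combination hu, by rw [sq_abs]; linear_combination hv⟩

end Fermat.Agent.S51.H951
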