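import Fermat.Agent.S51.H951.Rat

namespace Fermat.Agent.S51.H951

set_option maxRecDepth 1000000 in
set_option synthInstance.maxSize 1000 in
set_option synthInstance.maxHeartbeats 400000 in
lemma small1_nat : ∀ e : ℕ, e < 18 → ∀ a : ℕ, a < e → ∀ b : ℕ, b < e →
    (e ^ 2 = a ^ 2 + b ^ 2 → 0 < a → 0 < b →
    ∀ c : ℕ, c < 9 * e → 81 * e ^ 2 ≠ a ^ 2 + c ^ 2) := by decide

set_option maxRecDepth 1000000 in
set_option synthInstance.maxSize 1000 in
set_option synthInstance.maxHeartbeats 400000 in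
lemma small2_nat : ∀ e : ℕ, e < 9 → ∀ a : ℕ, a < e → ∀ b : ℕ, b < e →
    (e ^ 2 = a ^ 2 + 5 * b ^ 2 → 0 < a → 0 < b →
    ∀ c : ℕ, c < 9 * e → 81 * e ^ 2 ≠ a ^ 2 + 5 * c ^ 2) := by decide

lemma small1 (e a b c : ℤ) (he : 0 < e) (ha : 0 < a) (hb : 0 < b) (hc : 0 < c) (he18 : e < 18)
    (h1 : e ^ 2 = a ^ 2 + b ^ 2) (h2 : 81 * e ^ 2 = a ^ 2 + c ^ 2) : False := by
  lift e to ℕ using he.le
  lift a to ℕ using ha.le
  lift b to ℕ using hb.le
  lift c to ℕ using hc.le
  norm_cast at *
  have hae : a < e := by nlinarith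
  have hbe : b < e := by nlinarith
  have hce : c < 9 * e := by nlinarith
  exact small1_nat e he18 a hae b hbe h1 ha hb c hce h2

lemma small2 (e a b c : ℤ) (he : 0 < e) (ha : 0 < a) (hb : 0 < b) (hc : 0 < c) (he9 : e < 9)
    (h1 : e ^ 2 = a ^ 2 + 5 * b ^ 2) (h2 : 81 * e ^ 2 = a ^ 2 + 5 * c ^ 2) : False := by
  lift e to ℕ using he.le
  lift a to ℕ using ha.le
  lift b to ℕ using hb.le
  lift c to ℕ using hc.le
  norm_cast at *
  have hae : a < e := by nlinarith
  have hbe : b < e := by nlinarith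
  have hce : c < 9 * e := by nlinarith
  exact small2_nat e he9 a hae b hbe h1 ha hb c hce h2

lemma lt_of_sq_lt {a b : ℤ} (hb : 0 ≤ b) (h : a ^ 2 < b ^ 2) : a < b :=
  lt_of_pow_lt_pow_left₀ 2 hb h

lemma descent (x : ℚ) (hx : Sol x) : ∃ x', Sol x' ∧ ht x' < ht x := by
  obtain ⟨p, e, n, he, hcop, hn, h, hnum, hden⟩ := sol_int x hx
  obtain ⟨a, ha, hpa⟩ := p_square p e n he hcop hn h
  have hcopa : IsCoprime a e := by
    rw [hpa] at hcop
    exact (IsCoprime.pow_left_iff (by norm_num)).mp hcop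
  have hadvd : a ∣ n := by
    have : a ^ 2 ∣ n ^ 2 := ⟨(a ^ 2 - e ^ 2) * (a ^ 2 - 81 * e ^ 2), by rw [h, hpa]; ring⟩
    exact (Int.pow_dvd_pow_iff two_ne_zero).mp this
  obtain ⟨m, hm⟩ := hadvd
  have hm0 : m ≠ 0 := by
    rintro rfl; apply hn; rw [hm]; ring
  have hm2 : m ^ 2 = (a ^ 2 - e ^ 2) * (a ^ 2 - 81 * e ^ 2) := by
    have : a ^ 2 * m ^ 2 = a ^ 2 * ((a ^ 2 - e ^ 2) * (a ^ 2 - 81 * e ^ 2)) := by
      have h' := h
      rw [hpa, hm] at h'
      linear_combination h'
    exact mul_left_cancel₀ (pow_ne_zero 2 ha.ne') this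
  obtain ⟨s, ε, b, c, hs, hε, hb, hc, hB, hC⟩ := BC_class a e m hcopa hm0 hm2
  have hhta : a ^ 2 ≤ (ht x : ℤ) := by
    unfold ht
    rw [hnum, hpa]
    have : ((a ^ 2).natAbs : ℤ) = a ^ 2 := Int.natAbs_of_nonneg (by positivity)
    push_cast
    rw [← this]
    simp
  have hhte : e ^ 2 ≤ (ht x : ℤ) := by
    unfold ht
    push_cast
    rw [hden]
    exact le_max_right _ _
  have haQ : (0:ℚ) < a := by exact_mod_cast ha
  have hbQ : (0:ℚ) < b := by exact_mod_cast hb
  have hcQ : (0:ℚ) < c := by exact_mod_cast hc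
  have heQ : (0:ℚ) < e := by exact_mod_cast he
  have hBQ : (a:ℚ) ^ 2 - e ^ 2 = s * ε * b ^ 2 := by exact_mod_cast hB
  have hCQ : (a:ℚ) ^ 2 - 81 * e ^ 2 = s * ε * c ^ 2 := by exact_mod_cast hC
  rcases hs with rfl | rfl <;> rcases hε with rfl | rfl
  · -- class (+,1)
    have hb2 : 0 < b ^ 2 := by positivity
    have hc2 : 0 < c ^ 2 := by positivity
    have he2 : 0 < e ^ 2 := by positivity
    have hba : b < a := lt_of_sq_lt ha.le (by linarith)
    have hca : c < a := lt_of_sq_lt ha.le (by linarith)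
    have ha2 : 2 ≤ a := by linarith
    have haa : 2 * a ≤ a ^ 2 := by nlinarith
    refine ⟨((a + c : ℤ) : ℚ) / ((a - b : ℤ) : ℚ), ?_, ?_⟩
    · have := halving ((a:ℚ) / e) ((b:ℚ) / e) ((c:ℚ) / e)
        (by push_cast at hBQ; field_simp; linear_combination hBQ)
        (by push_cast at hCQ; field_simp; linear_combination hCQ)
        (by positivity) (by positivity) (by positivity)
      convert this using 1
      push_cast
      have : (a:ℚ) - b ≠ 0 := by
        have : (b:ℚ) < a := by exact_mod_cast hba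
        linarith
      field_simp
    · have := ht_div_lt (a + c) (a - b) (a ^ 2) (by linarith) (by linarith) (by linarith)
        (by linarith)
      have h2 : (ht (((a + c : ℤ) : ℚ) / ((a - b : ℤ) : ℚ)) : ℤ) < (ht x : ℤ) := by linarith
      exact_mod_cast h2
  · -- class (+,5)
    have h16 : 81 * b ^ 2 = 16 * a ^ 2 + c ^ 2 := by
      have : (5:ℤ) * (81 * b ^ 2) = 5 * (16 * a ^ 2 + c ^ 2) := by linear_combination -81 * hB + hC
      exact mul_left_cancel₀ (by norm_num) this
    have h16' : b ^ 2 = 16 * e ^ 2 + c ^ 2 := by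
      have : (5:ℤ) * (b ^ 2) = 5 * (16 * e ^ 2 + c ^ 2) := by linear_combination - hB + hC
      exact mul_left_cancel₀ (by norm_num) this
    have hb2 : 0 < b ^ 2 := by positivity
    have hc2 : 0 < c ^ 2 := by positivity
    have he2 : 0 < e ^ 2 := by positivity
    have hD : 4 * a < 9 * b := lt_of_sq_lt (by linarith) (by linarith)
    have h9e : 9 * e < a := lt_of_sq_lt ha.le (by linarith)
    have h2b : 2 * b < a := lt_of_sq_lt ha.le (by linarith)
    have ha10 : 10 ≤ a := by linarith
    have haa : 10 * a ≤ a ^ 2 := by nlinarith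
    refine ⟨((9 * b + 36 * e : ℤ) : ℚ) / ((9 * b - 4 * a : ℤ) : ℚ), ?_, ?_⟩
    · have := halving ((9 * b:ℚ) / c) ((4 * a:ℚ) / c) ((36 * e:ℚ) / c)
        (by
          have h16Q : 81 * (b:ℚ) ^ 2 = 16 * a ^ 2 + c ^ 2 := by exact_mod_cast h16
          field_simp; linear_combination h16Q)
        (by
          have h16Q : (b:ℚ) ^ 2 = 16 * e ^ 2 + c ^ 2 := by exact_mod_cast h16'
          field_simp; linear_combination 81 * h16Q)
        (by positivity) (by positivity) (by positivity)
      convert this using 1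
      push_cast
      have : 9 * (b:ℚ) - 4 * a ≠ 0 := by
        have : 4 * (a:ℚ) < 9 * b := by exact_mod_cast hD
        linarith
      field_simp
    · have := ht_div_lt (9 * b + 36 * e) (9 * b - 4 * a) (a ^ 2) (by linarith) (by linarith)
        (by linarith) (by linarith)
      have h2 : (ht (((9 * b + 36 * e : ℤ) : ℚ) / ((9 * b - 4 * a : ℤ) : ℚ)) : ℤ) < (ht x : ℤ) := by
        linarith
      exact_mod_cast h2
  · -- class (-,1)
    have h1 : e ^ 2 = a ^ 2 + b ^ 2 := by linear_combination -hB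
    have h2 : 81 * e ^ 2 = a ^ 2 + c ^ 2 := by linear_combination -hC
    have he18 : 18 ≤ e := by
      by_contra hcon
      exact small1 e a b c he ha hb hc (by linarith) h1 h2
    have ha2 : 0 < a ^ 2 := by positivity
    have hbe : b < e := lt_of_sq_lt he.le (by linarith)
    have hD : c < 9 * e := lt_of_sq_lt (by linarith) (by linarith)
    have hee : 18 * e ≤ e ^ 2 := by nlinarith
    refine ⟨((9 * e + 9 * b : ℤ) : ℚ) / ((9 * e - c : ℤ) : ℚ), ?_, ?_⟩
    · have := halving ((9 * e:ℚ) / a) ((c:ℚ) / a) ((9 * b:ℚ) / a)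
        (by
          have hQ : 81 * (e:ℚ) ^ 2 = a ^ 2 + c ^ 2 := by exact_mod_cast h2
          field_simp; linear_combination hQ)
        (by
          have hQ : (e:ℚ) ^ 2 = a ^ 2 + b ^ 2 := by exact_mod_cast h1
          field_simp; linear_combination 81 * hQ)
        (by positivity) (by positivity) (by positivity)
      convert this using 1
      push_cast
      have : 9 * (e:ℚ) - c ≠ 0 := by
        have : (c:ℚ) < 9 * e := by exact_mod_cast hD
        linarith
      field_simp
    · have := ht_div_lt (9 * e + 9 * b) (9 * e - c) (e ^ 2) (by linarith) (by linarith)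
        (by linarith) (by linarith)
      have h2 : (ht (((9 * e + 9 * b : ℤ) : ℚ) / ((9 * e - c : ℤ) : ℚ)) : ℤ) < (ht x : ℤ) := by
        linarith
      exact_mod_cast h2
  · -- class (-,5)
    have h1 : e ^ 2 = a ^ 2 + 5 * b ^ 2 := by linear_combination -hB
    have h2 : 81 * e ^ 2 = a ^ 2 + 5 * c ^ 2 := by linear_combination -hC
    have h3 : c ^ 2 = 16 * e ^ 2 + b ^ 2 := by
      have : (5:ℤ) * (c ^ 2) = 5 * (16 * e ^ 2 + b ^ 2) := by linear_combination h1 - h2
      exact mul_left_cancel₀ (by norm_num) this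
    have h4 : c ^ 2 = 16 * a ^ 2 + 81 * b ^ 2 := by
      have : (5:ℤ) * (c ^ 2) = 5 * (16 * a ^ 2 + 81 * b ^ 2) := by linear_combination 81 * h1 - h2
      exact mul_left_cancel₀ (by norm_num) this
    have he9 : 9 ≤ e := by
      by_contra hcon
      exact small2 e a b c he ha hb hc (by linarith) h1 h2
    have ha2 : 0 < a ^ 2 := by positivity
    have hb2 : 0 < b ^ 2 := by positivity
    have he2 : 0 < e ^ 2 := by positivity
    have hae : a < e := lt_of_sq_lt he.le (by linarith)
    have hD : 4 * e < c := lt_of_sq_lt hc.le (by linarith)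
    have hc5 : c < 5 * e := lt_of_sq_lt (by linarith) (by linarith)
    have hee : 9 * e ≤ e ^ 2 := by nlinarith
    refine ⟨((c + 4 * a : ℤ) : ℚ) / ((c - 4 * e : ℤ) : ℚ), ?_, ?_⟩
    · have := halving ((c:ℚ) / b) ((4 * e:ℚ) / b) ((4 * a:ℚ) / b)
        (by
          have hQ : (c:ℚ) ^ 2 = 16 * e ^ 2 + b ^ 2 := by exact_mod_cast h3
          field_simp; linear_combination hQ)
        (by
          have hQ : (c:ℚ) ^ 2 = 16 * a ^ 2 + 81 * b ^ 2 := by exact_mod_cast h4
          field_simp; linear_combination hQ)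
        (by positivity) (by positivity) (by positivity)
      convert this using 1
      push_cast
      have : (c:ℚ) - 4 * e ≠ 0 := by
        have : 4 * (e:ℚ) < c := by exact_mod_cast hD
        linarith
      field_simp
    · have := ht_div_lt (c + 4 * a) (c - 4 * e) (e ^ 2) (by linarith) (by linarith)
        (by linarith) (by linarith)
      have h2 : (ht (((c + 4 * a : ℤ) : ℚ) / ((c - 4 * e : ℤ) : ℚ)) : ℤ) < (ht x : ℤ) := by
        linarith
      exact_mod_cast h2

/-- There is no rational point with `y ≠ 0` on `y² = x (x - 1) (x - 81)`. -/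
theorem no_sol : ∀ (k : ℕ) (x : ℚ), ht x = k → ¬ Sol x := by
  intro k
  induction k using Nat.strong_induction_on with
  | _ k ih =>
    intro x hk hx
    obtain ⟨x', hx', hlt⟩ := descent x hx
    exact ih (ht x') (hk ▸ hlt) x' rfl hx'

/-- **Rational points on `15a2`**: every rational point of `Y² = X (X - 1) (X - 81)` has `Y = 0`. -/
theorem E2_rational (X Y : ℚ) (h : Y ^ 2 = X * (X - 1) * (X - 81)) : Y = 0 := by
  by_contra hY
  exact no_sol _ X rfl ⟨Y, hY, h⟩

/-- **Rational points on `15a1`** in the form `y² = x (x + 16) (x + 25)`. -/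
theorem E1_rational (x y : ℚ) (h : y ^ 2 = x * (x + 16) * (x + 25)) :
    y = 0 ∨ x = 20 ∨ x = -20 := by
  by_cases hx : x = 0
  · left
    rw [hx] at h
    simpa using h
  have hY := E2_rational ((x + 16) * (x + 25) / x) (y * (400 - x ^ 2) / x ^ 2) (by
    field_simp
    linear_combination ((400 - x ^ 2) ^ 2) * h)
  have : y * (400 - x ^ 2) = 0 := by
    have hx2 : x ^ 2 ≠ 0 := pow_ne_zero 2 hx
    field_simp at hY
    simpa using hY
  rcases mul_eq_zero.mp this with h1 | h1
  · left; exact h1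
  · right
    have : (x - 20) * (x + 20) = 0 := by linear_combination -h1
    rcases mul_eq_zero.mp this with h2 | h2
    · left; linarith
    · right; linarith

/-- **Rational points on `15a1`** in the form `Y² = X (X - 16) (X + 9)`. -/
theorem descent15 (X Y : ℚ) (h : Y ^ 2 = X * (X - 16) * (X + 9)) :
    X = 0 ∨ X = 16 ∨ X = -9 ∨ X = 36 ∨ X = -4 := by
  have h' : Y ^ 2 = (X - 16) * ((X - 16) + 16) * ((X - 16) + 25) := by
    rw [h]; ring
  rcases E1_rational (X - 16) Y h' with hY | hX | hX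
  · rw [hY] at h
    have h0 : X * (X - 16) * (X + 9) = 0 := by
      rw [← h]; ring
    rcases mul_eq_zero.mp h0 with h1 | h1
    · rcases mul_eq_zero.mp h1 with h2 | h2
      · left; exact h2
      · right; left; linarith
    · right; right; left; linarith
  · right; right; right; left; linarith
  · right; right; right; right; linarith

/-- The same statement with `y² = x (x + 9) (x - 16)`. -/
theorem descent15' (x y : ℚ) (h : y ^ 2 = x * (x + 9) * (x - 16)) :
    x = 0 ∨ x = -9 ∨ x = 16 ∨ x = -4 ∨ x = 36 := by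
  have h' : y ^ 2 = x * (x - 16) * (x + 9) := by rw [h]; ring
  rcases descent15 x y h' with h1 | h1 | h1 | h1 | h1
  · left; exact h1
  · right; right; left; exact h1
  · right; left; exact h1
  · right; right; right; right; exact h1
  · right; right; right; left; exact h1

end Fermat.Agent.S51.H951
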