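import Fermat.Agent.S51.H951.Class

namespace Fermat.Agent.S51.H951

/-- Rational points with `y ≠ 0` on `y² = x (x - 1) (x - 81)`. -/
def Sol (x : ℚ) : Prop := ∃ y : ℚ, y ≠ 0 ∧ y ^ 2 = x * (x - 1) * (x - 81)

/-- naive height -/
def ht (x : ℚ) : ℕ := max x.num.natAbs x.den

lemma halving (α β γ : ℚ) (h1 : α ^ 2 - 1 = β ^ 2) (h2 : α ^ 2 - 81 = γ ^ 2)
    (hα : 0 < α) (hβ : 0 < β) (hγ : 0 < γ) :
    Sol ((α + γ) / (α - β)) := by
  have hab : (α - β) * (α + β) = 1 := by linear_combination h1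
  have hne : α - β ≠ 0 := by
    intro h; rw [h] at hab; simp at hab
  have hx : (α + γ) / (α - β) = (α + β) * (α + γ) := by
    rw [div_eq_iff hne]
    linear_combination (-(α + γ)) * hab
  rw [hx]
  refine ⟨(α + β) * (α + γ) * (β + γ), by positivity, ?_⟩
  have e1 : (α + β) * (α + γ) - 1 = (α + β) * (β + γ) := by linear_combination h1
  have e2 : (α + β) * (α + γ) - 81 = (α + γ) * (β + γ) := by linear_combination h2
  rw [e1, e2]; ring

lemma ht_div_lt (N D B : ℤ) (hN : 0 < N) (hD : 0 < D) (hNB : N < B) (hDB : D < B) :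
    (ht ((N:ℚ) / D) : ℤ) < B := by
  unfold ht
  have h1 : ((N:ℚ)/D).num ∣ N := by
    rw [← Rat.divInt_eq_div]; exact Rat.num_dvd N hD.ne'
  have h2 : (((N:ℚ)/D).den : ℤ) ∣ D := by
    rw [← Rat.divInt_eq_div]; exact Rat.den_dvd N D
  have h3 : ((N:ℚ)/D).num.natAbs ≤ N.natAbs :=
    Nat.le_of_dvd (Int.natAbs_pos.mpr hN.ne') (Int.natAbs_dvd_natAbs.mpr h1)
  have h4 : ((N:ℚ)/D).den ≤ D.natAbs :=
    Nat.le_of_dvd (Int.natAbs_pos.mpr hD.ne') (by
      have := Int.natAbs_dvd_natAbs.mpr h2; simpa using this)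
  have h5 : ((max ((N:ℚ)/D).num.natAbs ((N:ℚ)/D).den : ℕ) : ℤ) ≤ max N D := by
    have h6 : (N.natAbs : ℤ) = N := Int.natAbs_of_nonneg hN.le
    have h7 : (D.natAbs : ℤ) = D := Int.natAbs_of_nonneg hD.le
    have h8 : max ((N:ℚ)/D).num.natAbs ((N:ℚ)/D).den ≤ max N.natAbs D.natAbs := max_le_max h3 h4
    calc ((max ((N:ℚ)/D).num.natAbs ((N:ℚ)/D).den : ℕ) : ℤ) ≤ ((max N.natAbs D.natAbs : ℕ) : ℤ) := by
          exact_mod_cast h8
      _ = max N D := by push_cast; rw [abs_of_pos hN, abs_of_pos hD]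
  have : max N D < B := max_lt hNB hDB
  omega

lemma sol_int (x : ℚ) (hx : Sol x) : ∃ p e n : ℤ, 0 < e ∧ IsCoprime p e ∧ n ≠ 0 ∧
    n ^ 2 = p * (p - e ^ 2) * (p - 81 * e ^ 2) ∧ x.num = p ∧ (x.den : ℤ) = e ^ 2 := by
  obtain ⟨y, hy0, hy⟩ := hx
  obtain ⟨p, hp⟩ : ∃ p : ℤ, p = x.num := ⟨_, rfl⟩
  obtain ⟨q, hq⟩ : ∃ q : ℤ, q = (x.den : ℤ) := ⟨_, rfl⟩
  have hqpos : 0 < q := by rw [hq]; exact_mod_cast x.den_pos
  have hqne : (q : ℚ) ≠ 0 := by exact_mod_cast hqpos.ne'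
  have hxpq : x = (p : ℚ) / q := by rw [hp, hq]; exact_mod_cast (Rat.num_div_den x).symm
  have h1 : ((p * (p - q) * (p - 81 * q) * q : ℤ) : ℚ) = (y * q ^ 2) * (y * q ^ 2) := by
    have : (y * q ^ 2) * (y * q ^ 2) = y ^ 2 * (q : ℚ) ^ 4 := by ring
    rw [this, hy, hxpq]; push_cast; field_simp
  have h2 : IsSquare (p * (p - q) * (p - 81 * q) * q : ℤ) := by
    rw [← Rat.isSquare_intCast_iff, h1]; exact ⟨y * q ^ 2, rfl⟩
  obtain ⟨N, hN⟩ := h2
  have hN0 : N ≠ 0 := by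
    rintro rfl
    have h3 : ((p * (p - q) * (p - 81 * q) * q : ℤ) : ℚ) = 0 := by rw [hN]; simp
    rw [h1] at h3
    have : y * (q:ℚ) ^ 2 = 0 := by simpa using h3
    rcases mul_eq_zero.mp this with h | h
    · exact hy0 h
    · exact hqne (pow_eq_zero_iff two_ne_zero |>.mp h)
  have hcop : IsCoprime p q := by
    have := x.reduced
    rw [hp, hq]
    rw [Int.isCoprime_iff_gcd_eq_one]
    simpa [Int.gcd] using this
  have hcq : IsCoprime q (p * (p - q) * (p - 81 * q)) := by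
    have c1 : IsCoprime q p := hcop.symm
    have c2 : IsCoprime q (p - q) := by
      have : p - q = p + (-1) * q := by ring
      rw [this]; exact IsCoprime.add_mul_right_right c1 _
    have c3 : IsCoprime q (p - 81 * q) := by
      have : p - 81 * q = p + (-81) * q := by ring
      rw [this]; exact IsCoprime.add_mul_right_right c1 _
    exact (c1.mul_right c2).mul_right c3
  have h3 : q * (p * (p - q) * (p - 81 * q)) = N ^ 2 := by rw [sq, ← hN]; ring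
  obtain ⟨e₀, he₀⟩ := Int.sq_of_isCoprime hcq h3
  have hqe : q = e₀ ^ 2 := by
    rcases he₀ with h | h
    · exact h
    · exfalso; nlinarith [sq_nonneg e₀]
  have he₀0 : e₀ ≠ 0 := by
    rintro rfl; simp at hqe; omega
  have habs : |e₀| ^ 2 = q := by rw [sq_abs]; exact hqe.symm
  have hdvd : |e₀| ∣ N := by
    have : |e₀| ^ 2 ∣ N ^ 2 := ⟨p * (p - q) * (p - 81 * q), by rw [← h3, habs]⟩
    exact (Int.pow_dvd_pow_iff two_ne_zero).mp this
  obtain ⟨n, hn⟩ := hdvd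
  have hepos : 0 < |e₀| := abs_pos.mpr he₀0
  refine ⟨p, |e₀|, n, hepos, ?_, ?_, ?_, hp.symm, by rw [habs, hq]⟩
  · rw [← habs] at hcop
    exact (IsCoprime.pow_right_iff (by norm_num)).mp hcop
  · rintro rfl; apply hN0; rw [hn]; ring
  · rw [habs]
    have : q * n ^ 2 = q * (p * (p - q) * (p - 81 * q)) := by
      rw [h3, hn, ← habs]; ring
    exact mul_left_cancel₀ hqpos.ne' this

end Fermat.Agent.S51.H951
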